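/-
S56, wall W3b (helper10), file 2: the abstract counting lemma behind `localWall_unip`.

`G` a group with a level structure `𝓤`, `M` a finite `k`-representation on which some level acts
trivially, `I ⊆ G` a normal subgroup ("inertia") and `φ ∈ G` ("Frobenius") such that `G` is
generated by `φ` and `I` modulo every level.  Then the classes in `H¹(G, M)` which have a cocycle
representative vanishing on `I` (the unramified classes) form a finite subgroup with at most
`#H⁰(G, M)` elements.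

Proof: a cocycle `c` vanishing on `I` has values in `X = M^I`, is determined by `c φ`, and its class
is determined by `c φ` modulo `(φ - 1) X`; `#X/(φ - 1)X = #ker (φ - 1 | X) = #M^G`.
-/
import Fermat.Agent.S56.W3.TW.Count
import Fermat.Agent.S56.W3.TW.LinAlg

set_option autoImplicit false

open groupCohomology

namespace Fermat.Agent.S56.UnipCount

open Fermat.Agent.F4 Fermat.Agent.S56.TWCount

variable {k G : Type} [Field k] [Group G] (𝓤 : Levels G) (M : Rep.{0} k G)

/-- The smooth cocycles vanishing on `I`. -/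
def zeroOn (I : Subgroup G) : Submodule k ↥(Z1 𝓤 M) where
  carrier := {z | ∀ τ ∈ I, (z : G → M) τ = 0}
  add_mem' := fun {a b} ha hb τ hτ => by
    show (a : G → M) τ + (b : G → M) τ = 0
    rw [ha τ hτ, hb τ hτ, add_zero]
  zero_mem' := fun _ _ => rfl
  smul_mem' := fun c a ha τ hτ => by
    show c • (a : G → M) τ = 0
    rw [ha τ hτ, smul_zero]

/-- The classes with a cocycle representative vanishing on `I`. -/
def unrClasses (I : Subgroup G) : AddSubgroup (H1sm 𝓤 M) :=
  ((zeroOn 𝓤 M I).map (H1smπ 𝓤 M)).toAddSubgroup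

variable {𝓤 M}

theorem mem_unrClasses {I : Subgroup G} {x : H1sm 𝓤 M} :
    x ∈ unrClasses 𝓤 M I ↔
      ∃ z : ↥(Z1 𝓤 M), (∀ τ ∈ I, (z : G → M) τ = 0) ∧ H1smπ 𝓤 M z = x :=
  Iff.rfl

/-- A cocycle vanishing on a normal subgroup `I` has values in the `I`-invariants. -/
theorem coc_fixed {I : Subgroup G} (hI : I.Normal) {f : G → M} (hf : f ∈ cocycles₁ M)
    (h0 : ∀ τ ∈ I, f τ = 0) (g τ : G) (hτ : τ ∈ I) : M.ρ τ (f g) = f g := by
  have h1 : f (τ * g) = M.ρ τ (f g) := by rw [coc_mul hf, h0 τ hτ, add_zero]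
  have h2 : τ * g = g * (g⁻¹ * τ * g) := by group
  have h3 : g⁻¹ * τ * g ∈ I := by
    have := hI.conj_mem τ hτ g⁻¹
    rwa [inv_inv] at this
  rw [← h1, h2, coc_mul hf, h0 _ h3, map_zero, zero_add]

/-- **The counting lemma for unramified classes.** -/
theorem card_unrClasses_le [Finite M] (I : Subgroup G) (hI : I.Normal) (φ : G)
    (hsm : ∃ U ∈ 𝓤.sets, ∀ g ∈ U, ∀ m : M, M.ρ g m = m)
    (hgen : ∀ U ∈ 𝓤.sets, ∀ g : G, ∃ (n : ℕ) (τ : G), τ ∈ I ∧ g⁻¹ * (φ ^ n * τ) ∈ U)
    (H0 : Submodule k M) (hH0 : ∀ m : M, (∀ g : G, M.ρ g m = m) → m ∈ H0) :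
    Finite (unrClasses 𝓤 M I) ∧ Nat.card (unrClasses 𝓤 M I) ≤ Nat.card H0 := by
  classical
  obtain ⟨U₀, hU₀, hU₀M⟩ := hsm
  -- the `I`-invariants
  let X : Submodule k M.V :=
    { carrier := {m | ∀ τ ∈ I, M.ρ τ m = m}
      add_mem' := fun {a b} ha hb τ hτ => by rw [map_add, ha τ hτ, hb τ hτ]
      zero_mem' := fun τ _ => map_zero _
      smul_mem' := fun c a ha τ hτ => by rw [map_smul, ha τ hτ] }
  have hXφ : ∀ x ∈ X, (M.ρ φ - 1) x ∈ X := by
    intro x hx τ hτ
    have h3 : φ⁻¹ * τ * φ ∈ I := by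
      have := hI.conj_mem τ hτ φ⁻¹
      rwa [inv_inv] at this
    have h4 : M.ρ τ (M.ρ φ x) = M.ρ φ x := by
      have e : τ * φ = φ * (φ⁻¹ * τ * φ) := by group
      rw [← Module.End.mul_apply, ← map_mul, e, map_mul, Module.End.mul_apply, hx _ h3]
    rw [LinearMap.sub_apply, Module.End.one_apply, map_sub, h4, hx τ hτ]
  let T : ↥X →ₗ[k] ↥X := (M.ρ φ - 1).restrict hXφ
  have hT : ∀ x : ↥X, ((T x : ↥X) : M.V) = M.ρ φ (x : M.V) - (x : M.V) := fun x => rfl
  -- representatives
  have hrep : ∀ ℓ : ↥(unrClasses 𝓤 M I),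
      ∃ z : ↥(Z1 𝓤 M), (∀ τ ∈ I, (z : G → M) τ = 0) ∧ H1smπ 𝓤 M z = ℓ.1 := fun ℓ => ℓ.2
  choose z hzI hz using hrep
  have hzX : ∀ ℓ (g : G), (z ℓ : G → M) g ∈ X := fun ℓ g τ hτ =>
    coc_fixed hI (z ℓ).2.1 (hzI ℓ) g τ hτ
  let E : ↥(unrClasses 𝓤 M I) → (↥X ⧸ LinearMap.range T) := fun ℓ =>
    Submodule.Quotient.mk ⟨(z ℓ : G → M) φ, hzX ℓ φ⟩
  have hE : Function.Injective E := by
    intro i j hij
    have h2 : (⟨(z i : G → M) φ, hzX i φ⟩ : ↥X) - ⟨(z j : G → M) φ, hzX j φ⟩ ∈
        LinearMap.range T := by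
      rw [← Submodule.Quotient.eq]
      exact hij
    obtain ⟨x, hx⟩ := h2
    have hm : M.ρ φ (x : M.V) - (x : M.V) = (z i : G → M) φ - (z j : G → M) φ := by
      have := congrArg Subtype.val hx
      rw [hT] at this
      exact this
    set m : M.V := (x : M.V) with hmdef
    have hmI : ∀ τ ∈ I, M.ρ τ m = m := x.2
    -- the difference cocycle
    set d : G → M := fun g => (z i : G → M) g - (z j : G → M) g - (M.ρ g m - m) with hd
    have hdcoc : d ∈ cocycles₁ M := by
      have h3 : d = (z i : G → M) - (z j : G → M) - (d₀₁ M).hom m := by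
        funext g
        rfl
      rw [h3]
      exact Submodule.sub_mem _ (Submodule.sub_mem _ (z i).2.1 (z j).2.1)
        (d₀₁_apply_mem_cocycles₁ m)
    have hdφ : d φ = 0 := by
      rw [hd]
      simp only
      rw [hm, sub_self]
    have hdI : ∀ τ ∈ I, d τ = 0 := by
      intro τ hτ
      rw [hd]
      simp only
      rw [hzI i τ hτ, hzI j τ hτ, hmI τ hτ, sub_self, sub_self, sub_zero]
    -- a common level
    obtain ⟨Ui, hUi, hUic⟩ := (z i).2.2
    obtain ⟨Uj, hUj, hUjc⟩ := (z j).2.2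
    obtain ⟨W₁, hW₁, hW₁le⟩ := 𝓤.directed Ui hUi Uj hUj
    obtain ⟨W, hW, hWle⟩ := 𝓤.directed W₁ hW₁ U₀ hU₀
    have hdW : ∀ g ∈ W, d g = 0 := by
      intro g hg
      have hgi : g ∈ Ui := (hW₁le (hWle hg).1).1
      have hgj : g ∈ Uj := (hW₁le (hWle hg).1).2
      have e1 : (z i : G → M) g = 0 := by
        have := hUic 1 g hgi
        rw [one_mul] at this
        rw [this]
        exact coc_one (z i).2.1
      have e2 : (z j : G → M) g = 0 := by
        have := hUjc 1 g hgj
        rw [one_mul] at this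
        rw [this]
        exact coc_one (z j).2.1
      rw [hd]
      simp only
      rw [e1, e2, hU₀M g (hWle hg).2, sub_self, sub_self, sub_zero]
    have hdall : ∀ g : G, d g = 0 := by
      intro g
      obtain ⟨n, τ, hτ, hw⟩ := hgen W hW g
      set w := g⁻¹ * (φ ^ n * τ) with hwdef
      have e1 : φ ^ n * τ = g * w := by rw [hwdef]; group
      have e2 : d (φ ^ n * τ) = 0 := by
        rw [coc_mul hdcoc, hdI τ hτ, map_zero, coc_pow_eq_zero hdcoc hdφ, add_zero]
      rw [e1, coc_mul hdcoc, hdW w hw, map_zero, zero_add] at e2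
      exact e2
    have h4 : (z i - z j : ↥(Z1 𝓤 M)) ∈ (B1 M).comap (Z1 𝓤 M).subtype := by
      rw [Submodule.mem_comap]
      refine ⟨m, ?_⟩
      funext g
      have := hdall g
      rw [hd] at this
      simp only at this
      have e : ((Z1 𝓤 M).subtype (z i - z j)) g = (z i : G → M) g - (z j : G → M) g := rfl
      rw [e]
      show M.ρ g m - m = (z i : G → M) g - (z j : G → M) g
      exact (sub_eq_zero.mp this).symm
    have h5 : H1smπ 𝓤 M (z i) = H1smπ 𝓤 M (z j) := by
      rw [← sub_eq_zero, ← map_sub]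
      exact (Submodule.Quotient.mk_eq_zero _).2 h4
    rw [hz, hz] at h5
    exact Subtype.ext h5
  have hfinM : Finite M.V := ‹Finite M›
  have : Finite ↥X := Subtype.finite
  have : Finite (↥X ⧸ LinearMap.range T) :=
    Finite.of_surjective _ (Submodule.mkQ_surjective _)
  have : Finite ↥H0 := Subtype.finite
  have hfin : Finite ↥(unrClasses 𝓤 M I) := Finite.of_injective E hE
  refine ⟨hfin, ?_⟩
  have h1 : Nat.card ↥(unrClasses 𝓤 M I) ≤ Nat.card (↥X ⧸ LinearMap.range T) :=
    Nat.card_le_card_of_injective E hE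
  have h2 : Nat.card (↥X ⧸ LinearMap.range T) = Nat.card (LinearMap.ker T) :=
    (TWLin.card_ker_eq_card_quot_range T).symm
  -- the kernel of `T` consists of `G`-invariants
  have hker : ∀ y : ↥(LinearMap.ker T), ((y : ↥X) : M.V) ∈ H0 := by
    intro y
    apply hH0
    have hyI : ∀ τ ∈ I, M.ρ τ ((y : ↥X) : M.V) = ((y : ↥X) : M.V) := (y : ↥X).2
    have hyφ : M.ρ φ ((y : ↥X) : M.V) = ((y : ↥X) : M.V) := by
      have := congrArg Subtype.val (LinearMap.mem_ker.1 y.2)
      rw [hT] at this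
      exact sub_eq_zero.1 this
    have hpow : ∀ n : ℕ, M.ρ (φ ^ n) ((y : ↥X) : M.V) = ((y : ↥X) : M.V) := by
      intro n
      induction n with
      | zero => rw [pow_zero, map_one, Module.End.one_apply]
      | succ n ih => rw [pow_succ, map_mul, Module.End.mul_apply, hyφ, ih]
    intro g
    obtain ⟨n, τ, hτ, hw⟩ := hgen U₀ hU₀ g
    set w := g⁻¹ * (φ ^ n * τ) with hwdef
    have e1 : φ ^ n * τ = g * w := by rw [hwdef]; group
    have e2 : M.ρ (φ ^ n * τ) ((y : ↥X) : M.V) = ((y : ↥X) : M.V) := by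
      rw [map_mul, Module.End.mul_apply, hyI τ hτ, hpow]
    rw [e1, map_mul, Module.End.mul_apply, hU₀M w hw] at e2
    exact e2
  let F : ↥(LinearMap.ker T) → ↥H0 := fun y => ⟨((y : ↥X) : M.V), hker y⟩
  have hF : Function.Injective F := by
    intro y y' h
    apply Subtype.ext
    apply Subtype.ext
    exact congrArg (fun t : ↥H0 => (t : M.V)) h
  have h3 : Nat.card (LinearMap.ker T) ≤ Nat.card ↥H0 := Nat.card_le_card_of_injective F hF
  rw [h2] at h1
  exact h1.trans h3

end Fermat.Agent.S56.UnipCount
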