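/-
S56, wall W3b (helper10), file 1: linear algebra for the unipotent local condition.

`V` of dimension `2` over a field `k` with `2 ≠ 0`, `n` a nonzero endomorphism with `n² = 0`
(so `u = 1 + n` is a nontrivial unipotent, `u⁻¹ = 1 - n`).  If `c` has trace `0` and
`tr (c n) = 0` then `c = u m u⁻¹ - m` for an endomorphism `m` of trace `0`.
-/
import Mathlib

set_option autoImplicit false

open Module

namespace Fermat.Agent.S56.UnipLin

variable {k V : Type} [Field k] [AddCommGroup V] [Module k V]

/-- A basis adapted to a nonzero endomorphism of square zero. -/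
theorem exists_basis_of_sq_zero [Module.Finite k V] (hV : Module.finrank k V = 2)
    (n : Module.End k V) (hn2 : n * n = 0) (hn : n ≠ 0) :
    ∃ b : Basis (Fin 2) k V, n (b 0) = 0 ∧ n (b 1) = b 0 := by
  classical
  obtain ⟨e, he⟩ : ∃ e : V, n e ≠ 0 := by
    by_contra hcon
    refine hn (LinearMap.ext fun x => ?_)
    rw [LinearMap.zero_apply]
    by_contra hx
    exact hcon ⟨x, hx⟩
  have hne : n (n e) = 0 := by
    have := LinearMap.congr_fun hn2 e
    simpa using this
  have hli : LinearIndependent k ![n e, e] := by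
    rw [LinearIndependent.pair_iff]
    intro s t hst
    have h1 : t • n e = 0 := by
      have := congrArg n hst
      rw [map_add, map_smul, map_smul, hne, smul_zero, zero_add, map_zero] at this
      exact this
    have ht : t = 0 := (smul_eq_zero.1 h1).resolve_right he
    rw [ht, zero_smul, add_zero] at hst
    exact ⟨(smul_eq_zero.1 hst).resolve_right he, ht⟩
  have hcard : Fintype.card (Fin 2) = Module.finrank k V := by
    rw [hV, Fintype.card_fin]
  let b : Basis (Fin 2) k V := basisOfLinearIndependentOfCardEqFinrank hli hcard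
  have hb : ∀ i, b i = ![n e, e] i := fun i => by
    simp [b, coe_basisOfLinearIndependentOfCardEqFinrank]
  refine ⟨b, ?_, ?_⟩
  · rw [hb 0]
    exact hne
  · rw [hb 1, hb 0]
    rfl

/-- The matrix identity behind `exists_conj`. -/
theorem matrix_conj (h2 : (2 : k) ≠ 0) (C : Matrix (Fin 2) (Fin 2) k)
    (htr : C 0 0 + C 1 1 = 0) (h10 : C 1 0 = 0) :
    ∃ M : Matrix (Fin 2) (Fin 2) k, M.trace = 0 ∧
      C = (1 + !![0, 1; 0, 0]) * M * (1 - !![0, 1; 0, 0]) - M := by
  refine ⟨!![-((C 0 0 + C 0 1) / 2), 0; C 0 0, (C 0 0 + C 0 1) / 2], ?_, ?_⟩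
  · simp [Matrix.trace_fin_two]
  · have h11 : C 1 1 = -C 0 0 := by linear_combination htr
    ext i j
    fin_cases i <;> fin_cases j
    · simp [Matrix.mul_apply, Fin.sum_univ_two, Matrix.one_apply]
    · simp [Matrix.mul_apply, Fin.sum_univ_two, Matrix.one_apply]
      field_simp
      ring
    · simp [Matrix.mul_apply, Fin.sum_univ_two, Matrix.one_apply, h10]
    · simp [Matrix.mul_apply, Fin.sum_univ_two, Matrix.one_apply, h11]

/-- **Trace-zero endomorphisms with `tr (c n) = 0` are of the form `u m u⁻¹ - m`.** -/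
theorem exists_conj [Module.Finite k V] (hV : Module.finrank k V = 2) (h2 : (2 : k) ≠ 0)
    (n : Module.End k V) (hn2 : n * n = 0) (hn : n ≠ 0) (c : Module.End k V)
    (hc : LinearMap.trace k V c = 0) (hcn : LinearMap.trace k V (c * n) = 0) :
    ∃ m : Module.End k V, LinearMap.trace k V m = 0 ∧ c = (1 + n) * m * (1 - n) - m := by
  classical
  obtain ⟨b, hb0, hb1⟩ := exists_basis_of_sq_zero hV n hn2 hn
  let E := LinearMap.toMatrixAlgEquiv b
  have hE : ∀ (f : Module.End k V) (i j : Fin 2), E f i j = b.repr (f (b j)) i :=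
    fun f i j => LinearMap.toMatrixAlgEquiv_apply b f i j
  have htrE : ∀ f : Module.End k V, LinearMap.trace k V f = (E f).trace := fun f =>
    LinearMap.trace_eq_matrix_trace k b f
  have hN : E n = !![0, 1; 0, 0] := by
    ext i j
    rw [hE]
    fin_cases i <;> fin_cases j <;> simp [hb0, hb1]
  have htr : E c 0 0 + E c 1 1 = 0 := by
    rw [htrE, Matrix.trace_fin_two] at hc
    exact hc
  have h10 : E c 1 0 = 0 := by
    rw [htrE, map_mul, hN, Matrix.trace_fin_two] at hcn
    simpa [Matrix.mul_apply, Fin.sum_univ_two] using hcn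
  obtain ⟨M, hM, hCM⟩ := matrix_conj h2 (E c) htr h10
  refine ⟨E.symm M, ?_, ?_⟩
  · rw [htrE, AlgEquiv.apply_symm_apply, hM]
  · apply E.injective
    rw [map_sub, map_mul, map_mul, map_add, map_sub, map_one, AlgEquiv.apply_symm_apply, hN]
    exact hCM

end Fermat.Agent.S56.UnipLin
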