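/-
S56, wall W3b (helper10), file 3: a tangent class with unipotent inertia at `v ≠ p` is a
coboundary on the inertia group at a place `A` over `v` where `ρbar` is ramified.

`ρ ≅ (1 + ε c) ρbar` over `k[ε]`, `char k = p` odd, `charpoly ρ(σ) = (X - 1)²` for `σ ∈ I_A`.
Then `ρ(σ)^p = 1`, so by tame inertia `ρ(I_A) ⊆ ⟨ρ(τ₀)⟩`; `u = ρbar(τ₀) = 1 + n`, `n² = 0`, `n ≠ 0`,
`tr c(τ₀) = 0 = tr (c(τ₀) n)`, so `c(τ₀) = u m u⁻¹ - m` with `tr m = 0` (Unip/LinAlg.lean), and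
`c - d m` vanishes on `I_A`.
-/
import Fermat.Agent.S56.W1.Unr
import Fermat.Agent.S56.W3.Unip.LinAlg
import Fermat.Agent.S56.W3.TW.Count
import Fermat.Agent.Lib.TameInertia.Main
import Fermat.Prelude.Def_GaloisRep_LocalConditions

set_option autoImplicit false
set_option linter.style.haveILetI false

open groupCohomology

namespace Fermat.Agent.S56.UnipTan

open Fermat.Agent.F4 ExtCitation Fermat.Agent.S56.TWCount
open scoped TensorProduct

variable {k : Type} [Field k]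

/-! ### the endomorphisms `defEnd` -/

theorem defEnd_eps_tmul (ρbar : ResidualGaloisRep k) (c : Module.End k ρbar.V) (σ : GQ)
    (v : ρbar.V) :
    defEnd ρbar c σ ((DualNumber.eps : DualNumber k) ⊗ₜ[k] v)
      = (DualNumber.eps : DualNumber k) ⊗ₜ[k] (ρbar.ρ σ v) := by
  have h1 : (DualNumber.eps : DualNumber k) ⊗ₜ[k] v
      = (DualNumber.eps : DualNumber k) • ((1 : DualNumber k) ⊗ₜ[k] v) := by
    rw [TensorProduct.smul_tmul', smul_eq_mul, mul_one]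
  rw [h1, map_smul, w1b_defEnd_one_tmul, smul_add, TensorProduct.smul_tmul',
    TensorProduct.smul_tmul', smul_eq_mul, smul_eq_mul, mul_one, DualNumber.eps_mul_eps,
    TensorProduct.zero_tmul, add_zero]

/-- The components of `defEnd`. -/
theorem fst_defEnd_one_tmul (ρbar : ResidualGaloisRep k) (c : Module.End k ρbar.V) (σ : GQ)
    (v : ρbar.V) :
    w1bFst ρbar.V (defEnd ρbar c σ ((1 : DualNumber k) ⊗ₜ[k] v)) = ρbar.ρ σ v := by
  rw [w1b_defEnd_one_tmul, map_add, w1bFst_tmul, w1bFst_tmul, DualNumber.fst_eps,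
    TrivSqZeroExt.fst_one, one_smul, zero_smul, add_zero]

theorem snd_defEnd_one_tmul (ρbar : ResidualGaloisRep k) (c : Module.End k ρbar.V) (σ : GQ)
    (v : ρbar.V) :
    w1bSnd ρbar.V (defEnd ρbar c σ ((1 : DualNumber k) ⊗ₜ[k] v)) = c (ρbar.ρ σ v) := by
  rw [w1b_defEnd_one_tmul, map_add, w1bSnd_tmul, w1bSnd_tmul, DualNumber.snd_eps,
    TrivSqZeroExt.snd_one, one_smul, zero_smul, zero_add]

/-- `ρbar(σ)` is invertible. -/
theorem ρ_mul_ρ_inv (ρbar : ResidualGaloisRep k) (σ : GQ) : ρbar.ρ σ * ρbar.ρ σ⁻¹ = 1 := by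
  rw [← map_mul, mul_inv_cancel, map_one]

theorem ρ_inv_mul_ρ (ρbar : ResidualGaloisRep k) (σ : GQ) : ρbar.ρ σ⁻¹ * ρbar.ρ σ = 1 := by
  rw [← map_mul, inv_mul_cancel, map_one]

/-- `defEnd` determines `ρbar(σ)` and `c`. -/
theorem defEnd_inj (ρbar : ResidualGaloisRep k) (c c' : Module.End k ρbar.V) (σ σ' : GQ)
    (h : defEnd ρbar c σ = defEnd ρbar c' σ') : ρbar.ρ σ = ρbar.ρ σ' ∧ c = c' := by
  have h1 : ρbar.ρ σ = ρbar.ρ σ' := by
    refine LinearMap.ext fun v => ?_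
    rw [← fst_defEnd_one_tmul ρbar c σ v, h, fst_defEnd_one_tmul]
  refine ⟨h1, ?_⟩
  have h2 : c * ρbar.ρ σ = c' * ρbar.ρ σ := by
    refine LinearMap.ext fun v => ?_
    rw [Module.End.mul_apply, Module.End.mul_apply, ← snd_defEnd_one_tmul ρbar c σ v, h,
      snd_defEnd_one_tmul, h1]
  calc c = c * (ρbar.ρ σ * ρbar.ρ σ⁻¹) := by rw [ρ_mul_ρ_inv, mul_one]
    _ = c * ρbar.ρ σ * ρbar.ρ σ⁻¹ := by rw [mul_assoc]
    _ = c' * ρbar.ρ σ * ρbar.ρ σ⁻¹ := by rw [h2]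
    _ = c' * (ρbar.ρ σ * ρbar.ρ σ⁻¹) := by rw [mul_assoc]
    _ = c' := by rw [ρ_mul_ρ_inv, mul_one]

/-- If `(defEnd - 1)² = 0` then `n = ρbar(σ) - 1` has square zero and
`c u u + u c u = 2 c u`. -/
theorem of_defEnd_sub_one_sq (ρbar : ResidualGaloisRep k) (c : Module.End k ρbar.V) (σ : GQ)
    (h : ∀ x, defEnd ρbar c σ (defEnd ρbar c σ x) - defEnd ρbar c σ x
      - (defEnd ρbar c σ x - x) = 0) :
    (ρbar.ρ σ - 1) * (ρbar.ρ σ - 1) = 0 ∧
      c * ρbar.ρ σ * ρbar.ρ σ + ρbar.ρ σ * c * ρbar.ρ σ = c * ρbar.ρ σ + c * ρbar.ρ σ := by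
  have key : ∀ v : ρbar.V,
      defEnd ρbar c σ (defEnd ρbar c σ ((1 : DualNumber k) ⊗ₜ[k] v))
        = (1 : DualNumber k) ⊗ₜ[k] (ρbar.ρ σ (ρbar.ρ σ v))
          + (DualNumber.eps : DualNumber k) ⊗ₜ[k] (c (ρbar.ρ σ (ρbar.ρ σ v)))
          + (DualNumber.eps : DualNumber k) ⊗ₜ[k] (ρbar.ρ σ (c (ρbar.ρ σ v))) := by
    intro v
    rw [w1b_defEnd_one_tmul, map_add, w1b_defEnd_one_tmul, defEnd_eps_tmul]
  constructor
  · refine LinearMap.ext fun v => ?_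
    have h1 := congrArg (w1bFst ρbar.V) (h ((1 : DualNumber k) ⊗ₜ[k] v))
    rw [key, w1b_defEnd_one_tmul] at h1
    simp only [map_sub, map_add, map_zero, w1bFst_tmul, DualNumber.fst_eps,
      TrivSqZeroExt.fst_one, one_smul, zero_smul, add_zero] at h1
    simp only [Module.End.mul_apply, LinearMap.sub_apply, Module.End.one_apply, map_sub,
      LinearMap.zero_apply]
    rw [← h1]
  · refine LinearMap.ext fun v => ?_
    have h1 := congrArg (w1bSnd ρbar.V) (h ((1 : DualNumber k) ⊗ₜ[k] v))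
    rw [key, w1b_defEnd_one_tmul] at h1
    simp only [map_sub, map_add, map_zero, w1bSnd_tmul, DualNumber.snd_eps,
      TrivSqZeroExt.snd_one, one_smul, zero_smul, zero_add, sub_zero] at h1
    simp only [Module.End.mul_apply, LinearMap.add_apply]
    have h2 : c (ρbar.ρ σ (ρbar.ρ σ v)) + ρbar.ρ σ (c (ρbar.ρ σ v))
        - c (ρbar.ρ σ v) - c (ρbar.ρ σ v) = 0 := h1
    exact sub_eq_zero.1 (by rw [← h2]; abel)

/-! ### unipotent elements -/

/-- `(1 + N)^j = 1 + j N` when `N² = 0`. -/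
theorem one_add_pow_of_sq_zero {R : Type*} [Ring R] (N : R) (hN : N * N = 0) (j : ℕ) :
    (1 + N) ^ j = 1 + j • N := by
  induction j with
  | zero => simp
  | succ j ih =>
    rw [pow_succ, ih, mul_add, mul_one, add_mul, one_mul, smul_mul_assoc, hN, smul_zero,
      add_zero, succ_nsmul]
    abel

/-- The action on `ad⁰` (by definition). -/
theorem ad0_val (ρbar : ResidualGaloisRep k) (g : GQ) (m : ad0 ρbar) :
    ((ad0 ρbar).ρ g m : ↥(ad0Sub ρbar)).1 =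
      ρbar.ρ g * (m : ↥(ad0Sub ρbar)).1 * ρbar.ρ g⁻¹ := rfl

/-- The action of `g` on `ad⁰` depends only on `ρbar g`. -/
theorem ad0_congr (ρbar : ResidualGaloisRep k) {g g' : GQ} (h : ρbar.ρ g = ρbar.ρ g')
    (m : ad0 ρbar) : (ad0 ρbar).ρ g m = (ad0 ρbar).ρ g' m := by
  have h' : ρbar.ρ g⁻¹ = ρbar.ρ g'⁻¹ := by
    calc ρbar.ρ g⁻¹ = ρbar.ρ g⁻¹ * (ρbar.ρ g' * ρbar.ρ g'⁻¹) := by rw [ρ_mul_ρ_inv, mul_one]
      _ = ρbar.ρ g⁻¹ * ρbar.ρ g * ρbar.ρ g'⁻¹ := by rw [← h, mul_assoc]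
      _ = ρbar.ρ g'⁻¹ := by rw [ρ_inv_mul_ρ, one_mul]
  apply Subtype.ext
  rw [ad0_val, ad0_val, h, h']

/-- **A tangent class with unipotent inertia is a coboundary on inertia at a ramified place.** -/
theorem exists_coboundary_on_inertia (p : ℕ) [Fact p.Prime] (hp2 : p ≠ 2) (hpk : (p : k) = 0)
    (ρbar : ResidualGaloisRep k) (v : ℕ) (hv : v.Prime) (hvp : v ≠ p)
    (A : ValuationSubring (AlgebraicClosure ℚ)) (hA : A.LiesOverPrime v)
    (hram : ∃ σ ∈ A.inertiaSubgroupIn ℚ, ρbar.ρ σ ≠ 1)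
    (c : GQ → ad0 ρbar) (hc : c ∈ cocycles₁ (ad0 ρbar))
    (ρ : GaloisRepAdic (DualNumber k)) (hdef : IsDefOf ρbar c ρ)
    (hunip : ρ.IsUnipotentOnInertiaAt v) :
    ∃ m : ad0 ρbar, ∀ σ ∈ A.inertiaSubgroupIn ℚ, c σ = (ad0 ρbar).ρ σ m - m := by
  classical
  obtain ⟨e, he⟩ := hdef
  have hp : p.Prime := Fact.out
  -- `(ρ σ - 1)² = 0` on inertia
  have hsq : ∀ σ ∈ A.inertiaSubgroupIn ℚ, (ρ.ρ σ - 1) * (ρ.ρ σ - 1) = 0 := by
    intro σ hσ
    have h1 := LinearMap.aeval_self_charpoly (ρ.ρ σ)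
    rw [hunip A hA σ hσ] at h1
    simpa [pow_two] using h1
  have hpD : ((p : ℕ) : DualNumber k) = 0 := by
    have := map_natCast (algebraMap k (DualNumber k)) p
    rw [← this, hpk, map_zero]
  have hpow : ∀ σ ∈ A.inertiaSubgroupIn ℚ, ρ.ρ σ ^ p = 1 := by
    intro σ hσ
    have h1 : ρ.ρ σ = 1 + (ρ.ρ σ - 1) := by abel
    rw [h1, one_add_pow_of_sq_zero _ (hsq σ hσ), ← Nat.cast_smul_eq_nsmul (DualNumber k), hpD,
      zero_smul, add_zero]
  -- tame inertia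
  let χ : GQ →* (Module.End (DualNumber k) ρ.V)ˣ := ρ.ρ.toHomUnits
  have hχ : ∀ σ, ((χ σ : (Module.End (DualNumber k) ρ.V)ˣ) : Module.End (DualNumber k) ρ.V)
      = ρ.ρ σ := fun σ => rfl
  have hopen : IsOpen (χ.ker : Set GQ) := by
    obtain ⟨L, hL, h1⟩ := ρ.isAdicContinuous 2
    haveI := hL
    refine Subgroup.isOpen_mono ?_ (IntermediateField.fixingSubgroup_isOpen L)
    intro σ hσ
    rw [MonoidHom.mem_ker]
    apply Units.ext
    rw [hχ, Units.val_one]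
    refine LinearMap.ext fun x => ?_
    have := h1 σ (fun y hy => (IntermediateField.mem_fixingSubgroup_iff L σ).mp hσ y hy) x
    rw [w1b_maximalIdeal_sq, Submodule.bot_smul, Submodule.mem_bot] at this
    rw [Module.End.one_apply]
    exact sub_eq_zero.mp this
  have hcop : ∀ σ ∈ A.inertiaSubgroupIn ℚ, (orderOf (χ σ)).Coprime v := by
    intro σ hσ
    have h1 : χ σ ^ p = 1 := by
      apply Units.ext
      rw [Units.val_pow_eq_pow_val, hχ, hpow σ hσ, Units.val_one]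
    have h2 : orderOf (χ σ) ∣ p := orderOf_dvd_of_pow_eq_one h1
    have hpv : p.Coprime v := (Nat.coprime_primes hp hv).2 (Ne.symm hvp)
    exact Nat.Coprime.coprime_dvd_left h2 hpv
  obtain ⟨⟨τ₀, hτ₀, hcyc⟩, -⟩ := Fermat.Agent.TameInertia.tame_inertia χ hopen v hv A hA hcop
  have hcyc' : ∀ σ ∈ A.inertiaSubgroupIn ℚ, ∃ j : ℕ, ρbar.ρ σ = ρbar.ρ (τ₀ ^ j) ∧
      (c σ : ↥(ad0Sub ρbar)).1 = (c (τ₀ ^ j) : ↥(ad0Sub ρbar)).1 := by
    intro σ hσ
    obtain ⟨j, hj⟩ := hcyc σ hσ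
    refine ⟨j, ?_⟩
    have h1 : ρ.ρ σ = ρ.ρ (τ₀ ^ j) := by
      have := congrArg Units.val hj
      rw [Units.val_pow_eq_pow_val, hχ, hχ, ← map_pow] at this
      exact this
    apply defEnd_inj
    refine LinearMap.ext fun x => ?_
    apply e.injective
    rw [← he, ← he, h1]
  -- the structure of `ρbar τ₀` and `c τ₀`
  have hD : ∀ x, defEnd ρbar (c τ₀ : ↥(ad0Sub ρbar)).1 τ₀
        (defEnd ρbar (c τ₀ : ↥(ad0Sub ρbar)).1 τ₀ x)
      - defEnd ρbar (c τ₀ : ↥(ad0Sub ρbar)).1 τ₀ x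
      - (defEnd ρbar (c τ₀ : ↥(ad0Sub ρbar)).1 τ₀ x - x) = 0 := by
    intro x
    apply e.injective
    rw [map_sub, map_sub, map_sub, map_zero, ← he, ← he]
    have := LinearMap.congr_fun (hsq τ₀ hτ₀) (e x)
    simpa [Module.End.mul_apply, LinearMap.sub_apply, Module.End.one_apply, map_sub] using this
  obtain ⟨hn2, hcu⟩ := of_defEnd_sub_one_sq ρbar (c τ₀ : ↥(ad0Sub ρbar)).1 τ₀ hD
  set u : Module.End k ρbar.V := ρbar.ρ τ₀ with hu
  set n : Module.End k ρbar.V := u - 1 with hn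
  set c₀ : Module.End k ρbar.V := (c τ₀ : ↥(ad0Sub ρbar)).1 with hc₀
  have htr0 : LinearMap.trace k ρbar.V c₀ = 0 := LinearMap.mem_ker.1 (c τ₀ : ↥(ad0Sub ρbar)).2
  clear_value n c₀
  clear_value u
  have hun : u = 1 + n := by rw [hn]; abel
  have h2 : (2 : k) ≠ 0 := by
    haveI : CharP k p := (CharP.charP_iff_prime_eq_zero hp).2 hpk
    intro h
    have h3 : ((2 : ℕ) : k) = 0 := by exact_mod_cast h
    have h4 : p ∣ 2 := (CharP.cast_eq_zero_iff k p 2).1 h3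
    have h5 : p ≤ 2 := Nat.le_of_dvd (by norm_num) h4
    have h6 := hp.two_le
    omega
  have htrn : LinearMap.trace k ρbar.V (c₀ * n) = 0 := by
    have e1 : u * n = n := by rw [hun, add_mul, hn2, one_mul, add_zero]
    have e2 : c₀ * n = c₀ * u * u - c₀ * u := by
      have : c₀ * u * u - c₀ * u = c₀ * (u * n) := by
        rw [hn, mul_sub, mul_one, mul_sub, mul_assoc]
      rw [this, e1]
    have e3 := congrArg (LinearMap.trace k ρbar.V) hcu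
    rw [map_add, map_add, mul_assoc u c₀ u, LinearMap.trace_mul_comm k u (c₀ * u)] at e3
    have e4 : (2 : k) * (LinearMap.trace k ρbar.V (c₀ * u * u)
        - LinearMap.trace k ρbar.V (c₀ * u)) = 0 := by linear_combination e3
    rw [e2, map_sub]
    exact (mul_eq_zero.1 e4).resolve_left h2
  have hn0 : n ≠ 0 := by
    intro h0
    have hu1 : u = 1 := by rw [hun, h0, add_zero]
    obtain ⟨σ, hσ, hσ1⟩ := hram
    obtain ⟨j, hj, -⟩ := hcyc' σ hσ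
    apply hσ1
    rw [hj, map_pow, ← hu, hu1, one_pow]
  obtain ⟨m, hm, hcm⟩ := UnipLin.exists_conj ρbar.finrank_eq h2 n hn2 hn0 c₀ htr0 htrn
  have hinv : ρbar.ρ τ₀⁻¹ = 1 - n := by
    have h3 : u * (1 - n) = 1 := by
      rw [hun]
      calc (1 + n) * (1 - n) = 1 - n * n := by noncomm_ring
        _ = 1 := by rw [hn2, sub_zero]
    calc ρbar.ρ τ₀⁻¹ = ρbar.ρ τ₀⁻¹ * (u * (1 - n)) := by rw [h3, mul_one]
      _ = ρbar.ρ τ₀⁻¹ * u * (1 - n) := by rw [mul_assoc]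
      _ = 1 - n := by rw [hu, ρ_inv_mul_ρ, one_mul]
  let m' : ad0 ρbar := (⟨m, LinearMap.mem_ker.2 hm⟩ : ↥(ad0Sub ρbar))
  have hcτ₀ : c τ₀ = (ad0 ρbar).ρ τ₀ m' - m' := by
    apply Subtype.ext
    refine hc₀.symm.trans ?_
    show c₀ = ((ad0 ρbar).ρ τ₀ m' : ↥(ad0Sub ρbar)).1 - m
    rw [ad0_val, hinv, ← hu, hun]
    exact hcm
  refine ⟨m', ?_⟩
  -- the difference cocycle
  set d : GQ → ad0 ρbar := fun g => c g - ((ad0 ρbar).ρ g m' - m') with hd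
  have hdcoc : d ∈ cocycles₁ (ad0 ρbar) := by
    have h3 : d = c - (d₀₁ (ad0 ρbar)).hom m' := by
      funext g
      rfl
    rw [h3]
    exact Submodule.sub_mem _ hc (d₀₁_apply_mem_cocycles₁ m')
  have hdτ₀ : d τ₀ = 0 := by
    rw [hd]
    simp only
    rw [← hcτ₀, sub_self]
  intro σ hσ
  obtain ⟨j, hj1, hj2⟩ := hcyc' σ hσ
  have h3 : d (τ₀ ^ j) = 0 := coc_pow_eq_zero hdcoc hdτ₀ j
  rw [hd] at h3
  simp only at h3
  have h4 : c σ = c (τ₀ ^ j) := Subtype.ext hj2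
  rw [h4, ad0_congr ρbar hj1 m']
  exact sub_eq_zero.1 h3

end Fermat.Agent.S56.UnipTan
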